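import Fermat.Agent.MultRelations.Box

/-!
# Relation lattices in a box

The relations between `n` numbers of height at most `H log 2` are generated by those in a box
depending only on `n`, `d` and `H`: modulo one small relation for each number outside a maximal
independent set the coordinates outside it are bounded, and these determine the others. One
coordinate of absolute value `1` can be kept, so equations `∏ a i ^ e i = b` have small solutions.
-/

set_option autoImplicit false
set_option linter.unusedSectionVars false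

noncomputable section

namespace FA.MultRelations

open NumberField Height Module Finset

variable {K : Type*} [Field K] [NumberField K] {ι : Type*} [Fintype ι] [DecidableEq ι]

/-- The size of the box. -/
def relationBound (n d H : ℕ) : ℕ := (n + 1) * 2 ^ (2 * d) * (n * H * 2 ^ (3 * d) + 1) ^ n

/-- A relation supported on `T`. -/
def Rel (a : ι → Kˣ) (T : Finset ι) (e : ι → ℤ) : Prop := monomial a e = 1 ∧ ∀ i ∉ T, e i = 0

/-- The small relations. -/
def smallRelations (a : ι → Kˣ) (B : ℕ) : Set (ι → ℤ) :=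
  {r | monomial a r = 1 ∧ ∀ i, (r i).natAbs ≤ B}

variable {a : ι → Kˣ}

/-- The relation for a number dependent on an independent set. -/
theorem exists_bounded_relation {d H : ℕ} (hd : finrank ℚ K ≤ d)
    (hH : ∀ i, logHeight₁ (a i : K) ≤ H * Real.log 2) {s : Finset ι}
    (hs : ∀ e, Rel a s e → e = 0) {j : ι} (hj : j ∉ s) (hdep : ∃ e, Rel a (insert j s) e ∧ e ≠ 0) :
    ∃ r, Rel a (insert j s) r ∧ 0 < r j ∧ ∀ i, (r i).natAbs ≤
      2 ^ (2 * d) * (Fintype.card ι * H * 2 ^ (3 * d) + 1) ^ Fintype.card ι := by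
  set n := Fintype.card ι with hn
  set Q := n * H * 2 ^ (3 * d) + 1 with hQ
  have hind : ∀ e, monomial a e = 1 → (∀ i ∉ insert j s, e i = 0) → e j = 0 → e = 0 :=
    fun e he hsupp hej => hs e ⟨he, fun i hi => by
      rcases eq_or_ne i j with rfl | hij
      · exact hej
      · exact hsupp i fun h => hi ((mem_insert.1 h).resolve_left hij)⟩
  obtain ⟨k, hk1, hk2, hkj, hkb⟩ := exists_small_relation hd (T := insert j s) (j := j)
    (fun _ => Q) (fun _ => by omega) (fun i => by
      refine le_trans (mul_le_mul_of_nonneg_left (hH i) (by positivity)) ?_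
      rw [← mul_assoc]
      refine mul_le_mul_of_nonneg_right ?_ (Real.log_nonneg one_le_two)
      have hc : (insert j s).card ≤ n := card_le_univ _
      have h1 : (insert j s).card * 2 ^ (3 * d) * H ≤ Q := by
        calc (insert j s).card * 2 ^ (3 * d) * H ≤ n * 2 ^ (3 * d) * H := by gcongr
          _ = n * H * 2 ^ (3 * d) := by ring
          _ ≤ Q := Nat.le_succ _
      exact_mod_cast h1) hind
    (hdep.imp fun e ⟨he, he0⟩ => ⟨he.1, he.2, fun hej => he0 (hind e he.1 he.2 hej)⟩)
  have hb : ∀ i, (k i).natAbs ≤ 2 ^ (2 * d) * Q ^ n := fun i => (hkb i).trans (by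
    rw [prod_const]
    exact Nat.mul_le_mul_left _ (Nat.pow_le_pow_right (by omega) (card_le_univ _)))
  rcases lt_or_gt_of_ne hkj with h | h
  · refine ⟨-k, ⟨?_, fun i hi => by simp [hk2 i hi]⟩, by simp [h], fun i => by simpa using hb i⟩
    rw [← neg_one_smul ℤ k, monomial_smul, hk1, one_zpow]
  · exact ⟨k, ⟨hk1, hk2⟩, h, hb⟩

/-- The reduced exponents are determined by those outside an independent set, so bounded. -/
theorem natAbs_le_of_reduced {s J : Finset ι} (hs : ∀ e, Rel a s e → e = 0)
    {r : ι → ι → ℤ} {B₀ : ℕ} (hr : ∀ j ∈ J, Rel a (insert j s) (r j) ∧ 0 < r j j ∧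
      ∀ i, (r j i).natAbs ≤ B₀) {e : ι → ℤ} (he : Rel a (s ∪ J) e)
    (hred : ∀ j ∈ J, |e j| ≤ r j j) (i : ι) : (e i).natAbs ≤ J.card * B₀ := by
  set C : ℤ := ∏ j ∈ J, r j j with hC
  have hC0 : 0 < C := prod_pos fun j hj => (hr j hj).2.1
  set f : ι → ℤ := C • e - ∑ j ∈ J, (e j * (C / r j j)) • r j with hf
  have hmon : ∀ (t : Finset ι) (c : ι → ℤ), (∀ j ∈ t, j ∈ J) →
      monomial a (∑ j ∈ t, c j • r j) = 1 := by
    intro t c
    induction t using Finset.induction_on with
    | empty => intro _; simp [monomial_zero]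
    | insert x t hx ih =>
      intro h
      rw [sum_insert hx, monomial_add, monomial_smul, (hr x (h x (mem_insert_self x t))).1.1,
        one_zpow, ih fun j hj => h j (mem_insert_of_mem hj), one_mul]
  have hdiv : ∀ j ∈ J, r j j ∣ C := fun j hj => dvd_prod_of_mem (fun l => r l l) hj
  have hfs : Rel a s f := by
    refine ⟨by rw [hf, monomial_sub, monomial_smul, he.1, one_zpow,
      hmon J (fun j => e j * (C / r j j)) fun j hj => hj, div_one], fun l hl => ?_⟩
    simp only [hf, Pi.sub_apply, Pi.smul_apply, Finset.sum_apply, smul_eq_mul]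
    by_cases hlJ : l ∈ J
    · rw [sum_eq_single l (fun j hj hjl => by
          rw [(hr j hj).1.2 l fun h => (mem_insert.1 h).elim (fun h => hjl h.symm) hl, mul_zero])
          (fun h => absurd hlJ h), mul_assoc, Int.ediv_mul_cancel (hdiv l hlJ)]
      ring
    · rw [he.2 l (fun h => (mem_union.1 h).elim hl hlJ), mul_zero, zero_sub, neg_eq_zero]
      refine sum_eq_zero fun j hj => ?_
      rw [(hr j hj).1.2 l fun h => (mem_insert.1 h).elim (fun h => hlJ (h ▸ hj)) hl, mul_zero]
  have h0 := congrFun (hs f hfs) i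
  simp only [hf, Pi.sub_apply, Pi.smul_apply, Finset.sum_apply, smul_eq_mul, Pi.zero_apply,
    sub_eq_zero] at h0
  have h1 : |C * e i| ≤ C * (J.card * B₀ : ℕ) := by
    rw [h0]
    refine (abs_sum_le_sum_abs _ _).trans
      ((sum_le_card_nsmul _ _ (C * (B₀ : ℤ)) fun j hj => ?_).trans
      (le_of_eq (by push_cast; simp only [nsmul_eq_mul]; ring)))
    obtain ⟨q, hq⟩ := hdiv j hj
    have hc := (hr j hj).2.1
    have hq0 : 0 ≤ q := by nlinarith
    rw [hq, Int.mul_ediv_cancel_left _ hc.ne', abs_mul, abs_mul, abs_of_nonneg hq0]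
    refine mul_le_mul (mul_le_mul_of_nonneg_right (hred j hj) hq0) ?_ (abs_nonneg _)
      (mul_nonneg hc.le hq0)
    rw [Int.abs_eq_natAbs]
    exact_mod_cast (hr j hj).2.2 i
  rw [abs_mul, abs_of_pos hC0] at h1
  have h2 := le_of_mul_le_mul_left h1 hC0
  rw [Int.abs_eq_natAbs] at h2
  exact_mod_cast h2

/-- **Reduction into the box**, keeping at most one coordinate `±1`. -/
theorem exists_reduced {d H : ℕ} (hd : finrank ℚ K ≤ d)
    (hH : ∀ i, logHeight₁ (a i : K) ≤ H * Real.log 2) (F : Finset ι) {e : ι → ℤ}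
    (he : monomial a e = 1) (hF1 : ∀ f ∈ F, ∀ g ∈ F, f = g) (hF : ∀ f ∈ F, |e f| = 1) :
    ∃ e' ∈ smallRelations a (relationBound (Fintype.card ι) d H), (∀ f ∈ F, e' f = e f) ∧
      e - e' ∈ AddSubgroup.closure (smallRelations a (relationBound (Fintype.card ι) d H)) := by
  classical
  set n := Fintype.card ι with hn
  set B₀ := 2 ^ (2 * d) * (n * H * 2 ^ (3 * d) + 1) ^ n with hB₀
  set B := relationBound n d H with hB
  have hBB : (n + 1) * B₀ = B := by rw [hB, relationBound, hB₀]; ring
  have hB₀B : B₀ ≤ B := hBB ▸ Nat.le_mul_of_pos_left _ (Nat.succ_pos n)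
  have hB1 : 1 ≤ B := le_trans (by rw [hB₀]; exact Nat.one_le_iff_ne_zero.2 (by positivity)) hB₀B
  obtain ⟨s, hs, hmax⟩ := exists_max_image
    ((univ \ F).powerset.filter fun s => ∀ e, Rel a s e → e = 0) card
    ⟨∅, mem_filter.2 ⟨empty_mem_powerset _, fun f hf => funext fun i => hf.2 i (notMem_empty i)⟩⟩
  obtain ⟨hsF, hsI⟩ := mem_filter.1 hs
  have hsF' : Disjoint s F := disjoint_of_subset_left (mem_powerset.1 hsF) disjoint_sdiff_self_left
  set J := (univ \ F) \ s with hJ
  have hrJ : ∀ j ∈ J, ∃ r, Rel a (insert j s) r ∧ 0 < r j ∧ ∀ i, (r i).natAbs ≤ B₀ := by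
    intro j hj
    obtain ⟨hjF, hjs⟩ := mem_sdiff.1 hj
    refine exists_bounded_relation hd hH hsI hjs ?_
    by_contra hno
    push Not at hno
    have := hmax _ (mem_filter.2 ⟨mem_powerset.2 (insert_subset hjF (mem_powerset.1 hsF)), hno⟩)
    rw [card_insert_of_notMem hjs] at this
    omega
  choose! r hr using hrJ
  set G := AddSubgroup.closure (smallRelations a B)
  set e₁ : ι → ℤ := e - ∑ j ∈ J, (e j / r j j) • r j with he₁
  have hsub : ∑ j ∈ J, (e j / r j j) • r j ∈ G := sum_mem fun j hj => zsmul_mem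
    (AddSubgroup.subset_closure (show r j ∈ smallRelations a B from
      ⟨(hr j hj).1.1, fun i => ((hr j hj).2.2 i).trans hB₀B⟩)) _
  have hclosure : ∀ g ∈ G, monomial a g = 1 := fun g hg => by
    refine AddSubgroup.closure_induction (fun x hx => hx.1) monomial_zero
      (fun x y _ _ hx hy => by rw [monomial_add, hx, hy, one_mul])
      (fun x _ hx => by rw [← neg_one_smul ℤ x, monomial_smul, hx, one_zpow]) hg
  have hmon : monomial a e₁ = 1 := by rw [he₁, monomial_sub, he, hclosure _ hsub, div_one]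
  have hJred : ∀ j ∈ J, 0 ≤ e₁ j ∧ e₁ j < r j j := by
    intro j hj
    have : e₁ j = e j % r j j := by
      simp only [he₁, Pi.sub_apply, Finset.sum_apply, Pi.smul_apply, smul_eq_mul]
      rw [sum_eq_single j (fun l hl hlj => by
          rw [(hr l hl).1.2 j fun h =>
            (mem_insert.1 h).elim (fun h => hlj h.symm) (mem_sdiff.1 hj).2, mul_zero])
        (fun h => absurd hj h), Int.emod_def, mul_comm]
    rw [this]
    exact ⟨Int.emod_nonneg _ (hr j hj).2.1.ne', Int.emod_lt_of_pos _ (hr j hj).2.1⟩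
  have hFkeep : ∀ f ∈ F, e₁ f = e f := by
    intro f hf
    simp only [he₁, Pi.sub_apply, Finset.sum_apply, Pi.smul_apply, smul_eq_mul]
    rw [sum_eq_zero fun l hl => by
      rw [(hr l hl).1.2 f fun h => (mem_insert.1 h).elim (fun h => (mem_sdiff.1
        (mem_sdiff.1 hl).1).2 (h ▸ hf)) (disjoint_right.1 hsF' hf), mul_zero], sub_zero]
  have hcover : ∀ i, i ∈ s ∨ i ∈ J ∨ i ∈ F := fun i => by
    by_cases h1 : i ∈ s
    · exact .inl h1
    by_cases h2 : i ∈ F
    · exact .inr (.inr h2)
    · exact .inr (.inl (mem_sdiff.2 ⟨mem_sdiff.2 ⟨mem_univ i, h2⟩, h1⟩))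
  -- the relations of the kept coordinate
  have hrF : ∀ f ∈ F, ∃ r', Rel a (insert f s) r' ∧ 0 < r' f ∧ ∀ i, (r' i).natAbs ≤ B₀ := by
    intro f hf
    refine exists_bounded_relation hd hH hsI (disjoint_right.1 hsF' hf) ?_
    set C : ℤ := ∏ j ∈ J, r j j
    refine ⟨C • e₁ - ∑ j ∈ J, (e₁ j * (C / r j j)) • r j, ⟨?_, fun l hl => ?_⟩, fun h0 => ?_⟩
    · rw [monomial_sub, monomial_smul, hmon, one_zpow, hclosure _ (sum_mem fun j hj => zsmul_mem
        (AddSubgroup.subset_closure (show r j ∈ smallRelations a B from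
          ⟨(hr j hj).1.1, fun i => ((hr j hj).2.2 i).trans hB₀B⟩)) _), div_one]
    · simp only [Pi.sub_apply, Pi.smul_apply, Finset.sum_apply, smul_eq_mul]
      rcases hcover l with h | h | h
      · exact absurd (mem_insert_of_mem h) hl
      · rw [sum_eq_single l (fun j hj hjl => by
            rw [(hr j hj).1.2 l fun h' => (mem_insert.1 h').elim (fun h' => hjl h'.symm)
              (mem_sdiff.1 h).2, mul_zero])
            (fun h' => absurd h h'), mul_assoc,
            Int.ediv_mul_cancel (dvd_prod_of_mem (fun l => r l l) h)]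
        ring
      · exact absurd (mem_insert.2 (.inl (hF1 l h f hf))) hl
    · have h1 := congrFun h0 f
      simp only [Pi.sub_apply, Pi.smul_apply, Finset.sum_apply, smul_eq_mul, Pi.zero_apply] at h1
      rw [sum_eq_zero fun j hj => by
        rw [(hr j hj).1.2 f fun h => (mem_insert.1 h).elim (fun h => (mem_sdiff.1
          (mem_sdiff.1 hj).1).2 (h ▸ hf)) (disjoint_right.1 hsF' hf), mul_zero],
        sub_zero, hFkeep f hf] at h1
      have hC : C ≠ 0 := prod_ne_zero_iff.2 fun j hj => (hr j hj).2.1.ne'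
      have h2 := hF f hf
      rw [(mul_eq_zero.1 h1).resolve_left hC, abs_zero] at h2
      exact zero_ne_one h2
  choose! r' hr' using hrF
  set R : ι → ι → ℤ := fun j => if j ∈ F then r' j else r j
  have hR : ∀ j ∈ J ∪ F, Rel a (insert j s) (R j) ∧ 0 < R j j ∧ ∀ i, (R j i).natAbs ≤ B₀ := by
    intro j hj
    by_cases h : j ∈ F
    · simp only [R, if_pos h]; exact hr' j h
    · simp only [R, if_neg h]; exact hr j ((mem_union.1 hj).resolve_right h)
  have hred : ∀ j ∈ J ∪ F, |e₁ j| ≤ R j j := by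
    intro j hj
    by_cases h : j ∈ F
    · rw [hFkeep j h, hF j h]
      exact (hR j hj).2.1
    · obtain ⟨h1, h2⟩ := hJred j ((mem_union.1 hj).resolve_right h)
      simp only [R, if_neg h]
      rw [abs_of_nonneg h1]
      exact h2.le
  refine ⟨e₁, ⟨hmon, fun i => ?_⟩, hFkeep, by rw [he₁, sub_sub_cancel]; exact hsub⟩
  rcases hcover i with h | h | h
  · refine (natAbs_le_of_reduced hsI hR ⟨hmon, fun l hl => ?_⟩ hred i).trans ?_
    · exact absurd (by rcases hcover l with h | h | h <;> simp [h]) hl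
    · rw [← hBB]
      exact Nat.mul_le_mul_right _ ((card_le_univ _).trans (Nat.le_succ n))
  · obtain ⟨h1, h2⟩ := hJred i h
    have h3 := (hr i h).2.2 i
    have h4 : B₀ ≤ B := hB₀B
    omega
  · rw [hFkeep i h, show (e i).natAbs = 1 by have := hF i h; rw [Int.abs_eq_natAbs] at this; omega]
    exact hB1

/-- **The relation lattice is generated in the box.** -/
theorem relation_mem_closure {d H : ℕ} (hd : finrank ℚ K ≤ d)
    (hH : ∀ i, logHeight₁ (a i : K) ≤ H * Real.log 2) {e : ι → ℤ} (he : monomial a e = 1) :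
    e ∈ AddSubgroup.closure (smallRelations a (relationBound (Fintype.card ι) d H)) := by
  obtain ⟨e', he', -, hsub⟩ := exists_reduced hd hH ∅ he (by simp) (by simp)
  simpa using add_mem hsub (AddSubgroup.subset_closure he')

/-- **Effective exponential equations.** -/
theorem exists_small_solution {d H : ℕ} (hd : finrank ℚ K ≤ d) {b : Kˣ}
    (hH : ∀ i, logHeight₁ (a i : K) ≤ H * Real.log 2) (hb : logHeight₁ (b : K) ≤ H * Real.log 2) :
    (∃ e : ι → ℤ, monomial a e = b) ↔ ∃ e : ι → ℤ, monomial a e = b ∧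
      ∀ i, (e i).natAbs ≤ relationBound (Fintype.card ι + 1) d H := by
  refine ⟨fun ⟨e, he⟩ => ?_, fun ⟨e, he, _⟩ => ⟨e, he⟩⟩
  set a' : Option ι → Kˣ := fun o => o.elim b a
  have hsplit : ∀ f : Option ι → ℤ,
      monomial a' f = b ^ f none * monomial a (fun i => f (some i)) := fun f => by
    simp [monomial, a', Fintype.prod_option]
  obtain ⟨e', ⟨he', hsmall⟩, hkeep, -⟩ := exists_reduced (a := a') hd
    (Option.rec hb hH) {none} (e := fun o => o.elim (-1) e)
    (by rw [hsplit]; simp [he]) (by simp) (by simp)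
  refine ⟨fun i => e' (some i), ?_, fun i => ?_⟩
  · rw [hsplit, hkeep none (mem_singleton_self _)] at he'
    rw [Option.elim, zpow_neg, zpow_one, inv_mul_eq_one] at he'
    exact he'.symm
  · simpa using hsmall (some i)

end FA.MultRelations

end
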