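import Fermat.Agent.MultRelations.Height

/-!
# Small relations by the box principle

A relation, up to roots of unity, whose coefficient at `j` is least possible has this coefficient at
most `∏ Q i` over the other indices: otherwise two multiples of it are in one box, and their
difference gives a number of height below the gap. If the other numbers are independent all
coefficients are bounded in this way.
-/

set_option autoImplicit false
set_option linter.unusedSectionVars false

noncomputable section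

namespace FA.MultRelations

open NumberField Height Module Finset

variable {K : Type*} [Field K] [NumberField K] {ι : Type*} [Fintype ι] [DecidableEq ι]

/-- The monomial with exponents `e`. -/
def monomial (a : ι → Kˣ) (e : ι → ℤ) : Kˣ := ∏ i, a i ^ e i

variable {a : ι → Kˣ}

theorem monomial_add (e f : ι → ℤ) : monomial a (e + f) = monomial a e * monomial a f := by
  simp [monomial, zpow_add, prod_mul_distrib]

theorem monomial_zero : monomial a (0 : ι → ℤ) = 1 := by simp [monomial]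

theorem monomial_smul (c : ℤ) (e : ι → ℤ) : monomial a (c • e) = monomial a e ^ c := by
  simp only [monomial, Pi.smul_apply, smul_eq_mul, ← prod_zpow]
  exact prod_congr rfl fun i _ => by rw [← zpow_mul, mul_comm]

theorem monomial_sub (e f : ι → ℤ) : monomial a (e - f) = monomial a e / monomial a f := by
  simp [monomial, zpow_sub, div_eq_mul_inv, prod_mul_distrib]

theorem monomial_single (j : ι) (c : ℤ) : monomial a (Pi.single j c) = a j ^ c := by
  rw [monomial, prod_eq_single j (fun i _ hi => by rw [Pi.single_eq_of_ne hi, zpow_zero])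
    (by simp), Pi.single_eq_same]

/-- A relation up to roots of unity, supported on `T`. -/
def TorRel (a : ι → Kˣ) (T : Finset ι) (e : ι → ℤ) : Prop :=
  IsOfFinOrder (monomial a e) ∧ ∀ i ∉ T, e i = 0

theorem TorRel.smul {T : Finset ι} {e : ι → ℤ} (h : TorRel a T e) (c : ℤ) : TorRel a T (c • e) :=
  ⟨by rw [monomial_smul]; exact h.1.zpow, fun i hi => by simp [h.2 i hi]⟩

theorem TorRel.sub {T : Finset ι} {e f : ι → ℤ} (he : TorRel a T e) (hf : TorRel a T f) :
    TorRel a T (e - f) :=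
  ⟨by rw [monomial_sub, div_eq_mul_inv]; exact IsOfFinOrder.mul he.1 hf.1.inv,
    fun i hi => by simp [he.2 i hi, hf.2 i hi]⟩

/-- **The box principle.** -/
theorem natAbs_le_of_minimal {d : ℕ} (hd : finrank ℚ K ≤ d) {T : Finset ι} {j : ι} (hj : j ∈ T)
    (Q : ι → ℕ) (hQ0 : ∀ i, 0 < Q i)
    (hQ : ∀ i, (T.card : ℝ) * 2 ^ (3 * d) * logHeight₁ (a i : K) ≤ Q i * Real.log 2)
    {k : ι → ℤ} (hk : TorRel a T k) (hkj : k j ≠ 0)
    (hmin : ∀ e, TorRel a T e → e j ≠ 0 → (k j).natAbs ≤ (e j).natAbs) :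
    (k j).natAbs ≤ ∏ i ∈ T.erase j, Q i := by
  by_contra hlt
  push Not at hlt
  set q := (k j).natAbs with hq
  have hq0 : (0 : ℤ) < q := by
    rw [hq]
    exact_mod_cast Int.natAbs_pos.2 hkj
  set box : ℕ → ∀ i ∈ T.erase j, ℕ := fun m i _ => ((((m : ℤ) * k i) % q).toNat * Q i) / q
  have hcard : ((T.erase j).pi fun i => range (Q i)).card < (range q).card := by
    rw [card_pi, card_range]
    simpa using hlt
  have hbox : ∀ m ∈ range q, box m ∈ (T.erase j).pi fun i => range (Q i) := fun m _ => by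
    refine mem_pi.2 fun i _ => mem_range.2 ((Nat.div_lt_iff_lt_mul (by omega)).2 ?_)
    rw [mul_comm (Q i)]
    refine Nat.mul_lt_mul_of_pos_right ?_ (hQ0 i)
    have := Int.emod_lt_of_pos ((m : ℤ) * k i) hq0
    omega
  obtain ⟨m, hm, m', hm', hne, heq⟩ := exists_ne_map_eq_of_card_lt_of_maps_to hcard hbox
  wlog hmm : m < m' generalizing m m'
  · exact this m' hm' m hm hne.symm heq.symm (by omega)
  set r : ι → ℤ := fun i => ((m' : ℤ) * k i) % q - ((m : ℤ) * k i) % q with hr
  set e : ι → ℤ := fun i => ((m' : ℤ) * k i) / q - ((m : ℤ) * k i) / q with he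
  have hsplit : (q : ℤ) • e = ((m' : ℤ) - m) • k - r := by
    funext i
    simp only [Pi.smul_apply, Pi.sub_apply, smul_eq_mul, he, hr]
    linear_combination Int.mul_ediv_add_emod ((m' : ℤ) * k i) q -
      Int.mul_ediv_add_emod ((m : ℤ) * k i) q
  have hr0 : ∀ i, i ∉ T.erase j → r i = 0 := by
    intro i hi
    by_cases hij : i = j
    · subst hij
      have hdvd : ∀ n : ℤ, n * k i % q = 0 := fun n =>
        Int.emod_eq_zero_of_dvd (dvd_mul_of_dvd_right (Int.natAbs_dvd.2 dvd_rfl) n)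
      simp only [hr, hdvd, sub_zero]
    · simp [hr, hk.2 i fun hiT => hi (mem_erase.2 ⟨hij, hiT⟩)]
  have hrsmall : ∀ i ∈ T.erase j, ((r i).natAbs * Q i : ℕ) < q := by
    intro i hi
    have h1 := congrFun (congrFun heq i) hi
    simp only [box] at h1
    have e1 := Int.emod_nonneg ((m' : ℤ) * k i) hq0.ne'
    have e2 := Int.emod_nonneg ((m : ℤ) * k i) hq0.ne'
    set A := (((m' : ℤ) * k i) % q).toNat with hA
    set B := (((m : ℤ) * k i) % q).toNat with hB
    have hrA : r i = (A : ℤ) - B := by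
      simp only [hr, hA, hB, Int.toNat_of_nonneg e1, Int.toNat_of_nonneg e2]
    have key : ∀ {x y : ℕ}, x * Q i / q = y * Q i / q → x * Q i < y * Q i + q := fun {x y} h => by
      have h2 := Nat.div_add_mod (x * Q i) q
      have h3 := Nat.div_add_mod (y * Q i) q
      have h4 := Nat.mod_lt (x * Q i) (show q > 0 by omega)
      rw [h] at h2
      omega
    rcases le_total A B with h | h
    · rw [show (r i).natAbs = B - A by omega, Nat.sub_mul]
      have := key h1
      omega
    · rw [show (r i).natAbs = A - B by omega, Nat.sub_mul]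
      have := key h1.symm
      omega
  have hτ := (hk.smul ((m' : ℤ) - m)).1
  have hpow : monomial a e ^ (q : ℤ) = monomial a (((m' : ℤ) - m) • k) / monomial a r := by
    rw [← monomial_smul, hsplit, monomial_sub]
  have hfin : IsOfFinOrder (monomial a e) := by
    by_contra hnot
    have h1 := logHeight₁_gap hd hnot
    have h2 : (q : ℝ) * logHeight₁ ((monomial a e : Kˣ) : K) ≤
        ∑ i ∈ T.erase j, ((r i).natAbs : ℝ) * logHeight₁ (a i : K) := by
      have h3 : logHeight₁ (((monomial a e ^ (q : ℤ) : Kˣ) : K)) ≤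
          ∑ i ∈ T.erase j, ((r i).natAbs : ℝ) * logHeight₁ (a i : K) := by
        rw [hpow, div_eq_mul_inv, Units.val_mul, Units.val_inv_eq_inv_val]
        refine (logHeight₁_mul_le _ _).trans ?_
        rw [logHeight₁_of_isOfFinOrder hτ, zero_add, logHeight₁_inv, monomial, Units.coe_prod,
          ← prod_subset (subset_univ (T.erase j)) fun i _ hi => by simp [hr0 i hi]]
        refine (logHeight₁_prod_le _ _).trans (sum_le_sum fun i _ => le_of_eq ?_)
        rw [Units.val_zpow_eq_zpow_val, logHeight₁_zpow]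
      rw [Units.val_zpow_eq_zpow_val, logHeight₁_zpow, Int.natAbs_natCast] at h3
      exact h3
    rw [div_le_iff₀ (by positivity)] at h1
    have hT : (1 : ℝ) ≤ T.card := by exact_mod_cast card_pos.2 ⟨j, hj⟩
    have hsum : (T.card : ℝ) * 2 ^ (3 * d) *
        ∑ i ∈ T.erase j, ((r i).natAbs : ℝ) * logHeight₁ (a i : K) ≤
        ((T.card : ℝ) - 1) * (q * Real.log 2) := by
      rw [mul_sum]
      refine (sum_le_card_nsmul _ _ ((q : ℝ) * Real.log 2) fun i hi => ?_).trans_eq ?_
      · have h5 : ((r i).natAbs : ℝ) * Q i ≤ q := by exact_mod_cast (hrsmall i hi).le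
        calc _ = ((r i).natAbs : ℝ) * ((T.card : ℝ) * 2 ^ (3 * d) * logHeight₁ (a i : K)) := by ring
          _ ≤ ((r i).natAbs : ℝ) * ((Q i : ℝ) * Real.log 2) :=
              mul_le_mul_of_nonneg_left (hQ i) (Nat.cast_nonneg _)
          _ ≤ (q : ℝ) * Real.log 2 := by
              rw [← mul_assoc]
              exact mul_le_mul_of_nonneg_right h5 (Real.log_nonneg one_le_two)
      · rw [nsmul_eq_mul, card_erase_of_mem hj, Nat.cast_sub (card_pos.2 ⟨j, hj⟩), Nat.cast_one]
    have hqR : (0 : ℝ) < q := by exact_mod_cast hq0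
    nlinarith [mul_le_mul_of_nonneg_left h2
        (mul_nonneg (Nat.cast_nonneg (α := ℝ) T.card) (pow_nonneg zero_le_two (3 * d))),
      mul_le_mul_of_nonneg_left h1 (mul_nonneg (Nat.cast_nonneg (α := ℝ) T.card) hqR.le),
      mul_pos hqR (Real.log_pos one_lt_two)]
  have hej : e j = ((m' : ℤ) - m) * (k j / q) := by
    have hdvd : (q : ℤ) ∣ k j := Int.natAbs_dvd.2 dvd_rfl
    simp only [he]
    rw [Int.mul_ediv_assoc _ hdvd, Int.mul_ediv_assoc _ hdvd]
    ring
  have hrel : TorRel a T e := ⟨hfin, fun i hi => by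
    have h0 := hk.2 i hi
    simp [he, h0]⟩
  have hsign : (k j / q).natAbs = 1 := by
    rcases Int.natAbs_eq (k j) with h | h
    · rw [h, ← hq, Int.ediv_self hq0.ne']; rfl
    · rw [h, ← hq, Int.neg_ediv_of_dvd dvd_rfl, Int.ediv_self hq0.ne']; rfl
  have hm'q := mem_range.1 hm'
  have habs : (e j).natAbs = m' - m := by
    rw [hej, Int.natAbs_mul, hsign, mul_one]
    omega
  have h0 : e j ≠ 0 := fun h => by rw [h, Int.natAbs_zero] at habs; omega
  have := hmin e hrel h0
  omega

/-- **Small relations when the other numbers are independent.** -/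
theorem exists_small_torRel {d : ℕ} (hd : finrank ℚ K ≤ d) {T : Finset ι} {j : ι}
    (Q : ι → ℕ) (hQ0 : ∀ i, 0 < Q i)
    (hQ : ∀ i, (T.card : ℝ) * 2 ^ (3 * d) * logHeight₁ (a i : K) ≤ Q i * Real.log 2)
    (hind : ∀ e, TorRel a T e → e j = 0 → e = 0) (hdep : ∃ e, TorRel a T e ∧ e j ≠ 0) :
    ∃ k, TorRel a T k ∧ k j ≠ 0 ∧ ∀ i, (k i).natAbs ≤ ∏ l ∈ T.erase i, Q l := by
  have hmin : ∀ i, (∃ e, TorRel a T e ∧ e i ≠ 0) → ∃ k, (TorRel a T k ∧ k i ≠ 0) ∧
      ∀ e, TorRel a T e → e i ≠ 0 → (k i).natAbs ≤ (e i).natAbs := fun i ⟨e₀, h₀⟩ => by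
    obtain ⟨k, hk, hmin⟩ := (measure fun e : ι → ℤ => (e i).natAbs).wf.has_min
      {e | TorRel a T e ∧ e i ≠ 0} ⟨e₀, h₀⟩
    exact ⟨k, hk, fun e he hei => not_lt.1 (hmin e ⟨he, hei⟩)⟩
  obtain ⟨k, ⟨hk, hkj⟩, hkmin⟩ := hmin j hdep
  have hmul : ∀ e, TorRel a T e → ∃ c : ℤ, e = c • k := fun e he => by
    refine ⟨e j / k j, sub_eq_zero.1 (hind _ (he.sub (hk.smul _)) ?_)⟩
    by_contra hne
    have h1 := hkmin _ (he.sub (hk.smul (e j / k j))) hne
    simp only [Pi.sub_apply, Pi.smul_apply, smul_eq_mul] at h1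
    rw [show e j - e j / k j * k j = e j % k j by rw [Int.emod_def]; ring] at h1
    have h2 := Int.emod_nonneg (e j) hkj
    have h3 := Int.emod_lt_abs (e j) hkj
    rw [Int.abs_eq_natAbs] at h3
    omega
  refine ⟨k, hk, hkj, fun i => ?_⟩
  rcases eq_or_ne (k i) 0 with h0 | h0
  · rw [h0, Int.natAbs_zero]
    exact Nat.zero_le _
  have hiT : i ∈ T := by_contra fun h => h0 (hk.2 i h)
  obtain ⟨k', ⟨hk', hk'i⟩, hk'min⟩ := hmin i ⟨k, hk, h0⟩
  refine le_trans ?_ (natAbs_le_of_minimal hd hiT Q hQ0 hQ hk' hk'i hk'min)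
  obtain ⟨c, rfl⟩ := hmul k' hk'
  simp only [Pi.smul_apply, smul_eq_mul, Int.natAbs_mul] at hk'i ⊢
  exact Nat.le_mul_of_pos_left _ (Int.natAbs_pos.2 (left_ne_zero_of_mul hk'i))

/-- **The theorem of Loxton and van der Poorten.** -/
theorem exists_small_relation {d : ℕ} (hd : finrank ℚ K ≤ d) {T : Finset ι} {j : ι}
    (Q : ι → ℕ) (hQ0 : ∀ i, 0 < Q i)
    (hQ : ∀ i, (T.card : ℝ) * 2 ^ (3 * d) * logHeight₁ (a i : K) ≤ Q i * Real.log 2)
    (hind : ∀ e, monomial a e = 1 → (∀ i ∉ T, e i = 0) → e j = 0 → e = 0)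
    (hdep : ∃ e, monomial a e = 1 ∧ (∀ i ∉ T, e i = 0) ∧ e j ≠ 0) :
    ∃ k, monomial a k = 1 ∧ (∀ i ∉ T, k i = 0) ∧ k j ≠ 0 ∧
      ∀ i, (k i).natAbs ≤ 2 ^ (2 * d) * ∏ l ∈ T.erase i, Q l := by
  obtain ⟨k, ⟨hkfin, hksupp⟩, hkj, hkb⟩ := exists_small_torRel hd Q hQ0 hQ
    (fun e he hej => by
      obtain ⟨w, hw, hwe⟩ := isOfFinOrder_iff_pow_eq_one.1 he.1
      have h := hind ((w : ℤ) • e) (by rw [monomial_smul, zpow_natCast, hwe])
        (fun i hi => by simp [he.2 i hi]) (by simp [hej])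
      exact (smul_eq_zero.1 h).resolve_left (by omega))
    (hdep.imp fun e he => ⟨⟨by rw [he.1]; exact IsOfFinOrder.one, he.2.1⟩, he.2.2⟩)
  refine ⟨(orderOf (monomial a k) : ℤ) • k, by rw [monomial_smul, zpow_natCast, pow_orderOf_eq_one],
    fun i hi => by simp [hksupp i hi], ?_, fun i => ?_⟩
  · simp [hkj, hkfin.orderOf_pos.ne']
  · simp only [Pi.smul_apply, smul_eq_mul, Int.natAbs_mul, Int.natAbs_natCast]
    exact Nat.mul_le_mul (orderOf_le hd hkfin) (hkb i)

end FA.MultRelations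

end
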