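import Fermat.Agent.Postnikova.Height
import Mathlib.NumberTheory.Height.NumberField

/-!
# The height gap in a number field of bounded degree

The size `pairLogSize a b` is the height of `a / b`, so the height of a number that is no root of
unity is at least `log 2 / 2 ^ (3 d)` in degree at most `d`; a root of unity has order at most
`2 ^ (2 d)`.
-/

set_option autoImplicit false
set_option linter.unusedSectionVars false

noncomputable section

namespace FA.MultRelations

open NumberField Height Module Real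

variable {K : Type*} [Field K] [NumberField K]

theorem pairLogSize_eq_logHeight₁ {a b : 𝓞 K} (hb : b ≠ 0) :
    Postnikova.pairLogSize a b = logHeight₁ ((a : K) / (b : K)) := by
  classical
  set x : Fin 2 → 𝓞 K := ![a, b] with hx
  have hx0 : x ≠ 0 := fun h => hb (by simpa [hx] using congrFun h 1)
  have hxK : ![(a : K), (b : K)] = fun i => (x i : K) := by
    funext i
    fin_cases i <;> rfl
  have hspan : Ideal.span (Set.range x) = Ideal.span {a, b} := by
    rw [hx, Matrix.range_cons, Matrix.range_cons, Matrix.range_empty, Set.union_empty,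
      Set.singleton_union]
  have hxK0 : (fun i => (x i : K)) ≠ 0 := fun h => hb
    (RingOfIntegers.coe_eq_zero_iff.1 (by simpa [hx] using congrFun h 1))
  have hsup : ∀ w : InfinitePlace K, ∀ σ : K →+* ℂ, InfinitePlace.mk σ = w →
      max ‖σ (a : K)‖ ‖σ (b : K)‖ = ⨆ i, w (x i : K) := by
    intro w σ hσ
    subst hσ
    simp only [InfinitePlace.apply, hx]
    refine le_antisymm (max_le ?_ ?_) (ciSup_le fun i => ?_)
    · exact le_ciSup_of_le (Finite.bddAbove_range _) 0 le_rfl
    · exact le_ciSup_of_le (Finite.bddAbove_range _) 1 le_rfl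
    · fin_cases i <;> simp
  have hnorm := absNorm_mul_finprod_finitePlace_eq_one (K := K) hx0
  rw [hspan] at hnorm
  have hfin : (∏ᶠ v : FinitePlace K, ⨆ i, v (x i : K)) =
      ((Ideal.absNorm (Ideal.span {a, b}) : ℕ) : ℝ)⁻¹ := eq_inv_of_mul_eq_one_right hnorm
  have hpos : ∀ w : InfinitePlace K, (0 : ℝ) < ⨆ i, w (x i : K) := fun w =>
    lt_of_lt_of_le (InfinitePlace.pos_iff.2 (RingOfIntegers.coe_ne_zero_iff.2 hb) : 0 < w (b : K))
      (le_ciSup_of_le (Finite.bddAbove_range _) 1 le_rfl)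
  rw [logHeight₁_div_eq_logHeight, hxK, logHeight_eq_log_mulHeight, NumberField.mulHeight_eq hxK0,
    hfin, log_mul (Finset.prod_ne_zero_iff.2 fun w _ => pow_ne_zero _ (hpos w).ne')
      (inv_ne_zero fun h => by rw [h, zero_mul] at hnorm; exact zero_ne_one hnorm),
    log_inv, log_prod fun w _ => pow_ne_zero _ (hpos w).ne', Postnikova.pairLogSize,
    ← sub_eq_add_neg]
  congr 1
  rw [← Finset.sum_fiberwise Finset.univ InfinitePlace.mk]
  refine Finset.sum_congr rfl fun w _ => ?_
  rw [Finset.sum_congr rfl fun σ hσ => (show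
      log (max ‖σ (a : K)‖ ‖σ (b : K)‖) = log (⨆ i, w (x i : K)) by
        rw [hsup w σ (Finset.mem_filter.1 hσ).2]), Finset.sum_const,
    InfinitePlace.card_filter_mk_eq,
    nsmul_eq_mul, log_pow]

theorem exists_integer_fraction (x : Kˣ) :
    ∃ a b : 𝓞 K, a ≠ 0 ∧ b ≠ 0 ∧ (a : K) / (b : K) = x := by
  obtain ⟨a, b, hb, hab⟩ := IsFractionRing.div_surjective (𝓞 K) (x : K)
  exact ⟨a, b, fun h => x.ne_zero (by rw [← hab, h, map_zero, zero_div]),
    nonZeroDivisors.ne_zero hb, hab⟩

/-- **The height gap.** -/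
theorem logHeight₁_gap {d : ℕ} (hd : finrank ℚ K ≤ d) {x : Kˣ} (hx : ¬ IsOfFinOrder x) :
    log 2 / 2 ^ (3 * d) ≤ logHeight₁ (x : K) := by
  obtain ⟨a, b, ha, hb, hab⟩ := exists_integer_fraction x
  rw [← hab, ← pairLogSize_eq_logHeight₁ hb]
  refine Postnikova.pairLogSize_ge hd ha hb fun i hi h => hx ?_
  rw [hab] at h
  exact isOfFinOrder_iff_pow_eq_one.2 ⟨i, hi, Units.ext h⟩

theorem logHeight₁_of_isOfFinOrder {x : Kˣ} (hx : IsOfFinOrder x) : logHeight₁ (x : K) = 0 := by
  obtain ⟨n, hn, h⟩ := isOfFinOrder_iff_pow_eq_one.1 hx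
  have h1 := logHeight₁_pow (x : K) n
  rw [← Units.val_pow_eq_pow_val, h, Units.val_one, logHeight₁_one] at h1
  exact (mul_eq_zero.1 h1.symm).resolve_left (Nat.cast_ne_zero.2 hn.ne')

/-- The height of a quotient of integers with bounded conjugates. -/
theorem logHeight₁_div_le {d h : ℕ} (hd : finrank ℚ K ≤ d) {a b : 𝓞 K} (hb : b ≠ 0)
    (hah : ∀ σ : K →+* ℂ, ‖σ (a : K)‖ ≤ (2 : ℝ) ^ h)
    (hbh : ∀ σ : K →+* ℂ, ‖σ (b : K)‖ ≤ (2 : ℝ) ^ h) :
    logHeight₁ ((a : K) / (b : K)) ≤ ((d * h : ℕ) : ℝ) * log 2 := by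
  rw [← pairLogSize_eq_logHeight₁ hb, Postnikova.pairLogSize]
  refine (sub_le_self _ (log_natCast_nonneg _)).trans ((Finset.sum_le_card_nsmul _ _
    ((h : ℝ) * log 2) fun σ _ => ?_).trans ?_)
  · rw [← log_pow]
    exact log_le_log (lt_max_of_lt_right (Postnikova.norm_emb_pos σ hb)) (max_le (hah σ) (hbh σ))
  · rw [Finset.card_univ, Embeddings.card, nsmul_eq_mul, Nat.cast_mul, mul_assoc]
    exact mul_le_mul_of_nonneg_right (Nat.cast_le.2 hd) (by positivity)

/-- **The order of a root of unity.** -/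
theorem orderOf_le {d : ℕ} (hd : finrank ℚ K ≤ d) {x : Kˣ} (hx : IsOfFinOrder x) :
    orderOf x ≤ 2 ^ (2 * d) := by
  classical
  have hint : ∀ j : ℕ, IsIntegral ℤ ((x : K) ^ j) := fun j => by
    refine IsIntegral.pow (IsIntegral.of_pow hx.orderOf_pos ?_) j
    rw [← Units.val_pow_eq_pow_val, pow_orderOf_eq_one, Units.val_one]
    exact isIntegral_one
  set f : ℕ → 𝓞 K := fun j => ⟨(x : K) ^ j, hint j⟩
  have hcard := BakerExplicit.PowerRatio.card_le hd (T := 0)
    (s := (Finset.range (orderOf x)).image f) fun z hz σ => by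
      obtain ⟨j, -, rfl⟩ := Finset.mem_image.1 hz
      show ‖σ ((x : K) ^ j)‖ ≤ _
      have h1 : ‖σ (x : K)‖ ^ orderOf x = 1 := by
        rw [← norm_pow, ← map_pow, ← Units.val_pow_eq_pow_val, pow_orderOf_eq_one, Units.val_one,
          map_one, norm_one]
      rw [map_pow, norm_pow, (pow_eq_one_iff_of_nonneg (norm_nonneg _) hx.orderOf_pos.ne').1 h1,
        one_pow, pow_zero]
  rwa [Finset.card_image_of_injOn, Finset.card_range] at hcard
  intro i hi j hj hij
  exact pow_injOn_Iio_orderOf (Finset.mem_range.1 hi) (Finset.mem_range.1 hj)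
    (Units.ext (by
      rw [Units.val_pow_eq_pow_val, Units.val_pow_eq_pow_val]
      exact congrArg (fun z : 𝓞 K => (z : K)) hij))

end FA.MultRelations

end
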